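/-
P-ES1 / ES1-SMOOTH (row 575, helper41): every point of `J₁(M)(ℚ̄)` has an open stabiliser
in `G_ℚ`.

The generic statement `Fermat.Agent.H58.jsmooth_pic0_fixed` (row 434) works for every
`F₀ : IntermediateField ℚ (LaurentSeries ℚ)` whose base change to `ℚ̄` has principal divisors;
here it is instantiated at `F₀ = F1 M`.  The only input is the function-field package of
row 576 (ES1-FINITE), which we take in each of its three equivalent forms:

* `j1Smooth_of_principal`: from `HasPrincipalDivisors ℚ̄ (F1Bar M)`;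
* `j1Smooth_of_rrHyp`: from `H58.RRHyp ℚ̄ (F1Bar M)`;
* `j1Smooth_of_finite`: from a transcendental `x ∈ F1Bar M` with `F1Bar M` finite over `ℚ̄(x)`.

Torsion is not used: `j1_openStabiliser` holds for every point of `J₁(M)(ℚ̄)`.
-/
import Fermat.Agent.H29.ES1.Interfaces
import Fermat.Agent.H58.ES.JSmooth

set_option autoImplicit false
set_option linter.style.haveILetI false

noncomputable section

open AlgebraicCurve ModularCurve IntermediateField

namespace Fermat.Agent.H41.ES1

open Fermat.Agent.H29.ES1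

/-- Every point of `J₁(M)(ℚ̄)` is fixed by `G_L` for a finite `L/ℚ`, as soon as the function
field `ℚ̄(X₁(M))` has principal divisors. -/
theorem j1_openStabiliser (M : ℕ) [NeZero M]
    [HasPrincipalDivisors (AlgebraicClosure ℚ) ↥(F1Bar M)] (x : J1 M) :
    ∃ L : IntermediateField ℚ (AlgebraicClosure ℚ), FiniteDimensional ℚ L ∧
      ∀ σ : GalQ, (∀ y ∈ L, σ y = y) → σ • x = x :=
  Fermat.Agent.H58.jsmooth_pic0_fixed (F1 M) x

/-- **ES1-SMOOTH**, from `HasPrincipalDivisors ℚ̄ (F1Bar M)`. -/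
theorem j1Smooth_of_principal
    (h : ∀ (M : ℕ) [NeZero M], 5 ≤ M →
      HasPrincipalDivisors (AlgebraicClosure ℚ) ↥(F1Bar M)) :
    J1SmoothStatement := by
  intro M _ hM x _
  haveI := h M hM
  exact j1_openStabiliser M x

/-- **ES1-SMOOTH**, from Riemann's theorem package `RRHyp ℚ̄ (F1Bar M)`. -/
theorem j1Smooth_of_rrHyp
    (h : ∀ (M : ℕ) [NeZero M], 5 ≤ M →
      Fermat.Agent.H58.RRHyp (AlgebraicClosure ℚ) ↥(F1Bar M)) :
    J1SmoothStatement :=
  j1Smooth_of_principal fun M _ hM => (h M hM).principal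

/-- **ES1-SMOOTH**, from the function-field hypotheses of row 576: some `x ∈ ℚ̄(X₁(M))` is
transcendental over `ℚ̄` and `ℚ̄(X₁(M))` is finite over `ℚ̄(x)`. -/
theorem j1Smooth_of_finite
    (h : ∀ (M : ℕ) [NeZero M], 5 ≤ M → ∃ x : ↥(F1Bar M),
      Transcendental (AlgebraicClosure ℚ) x ∧
        FiniteDimensional (AlgebraicClosure ℚ)⟮x⟯ ↥(F1Bar M)) :
    J1SmoothStatement :=
  j1Smooth_of_rrHyp fun M _ hM => by
    obtain ⟨x, hx, hfin⟩ := h M hM
    exact Fermat.Agent.H58.rrHyp_charZero _ _ x hx hfin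

end Fermat.Agent.H41.ES1

end
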