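import Mathlib

/-!
# Lambert-type regrouping with a bounded weight

For `‖q‖ < 1` and a bounded `ε : ℕ → ℂ`:
`∑_{c ≥ 1} ε(c) ∑_{m ≥ 1} m^k q^{c m} = ∑_{N ≥ 1} (∑_{c m = N} ε(c) m^k) q^N`.
-/

set_option autoImplicit false

open Filter Topology

namespace Fermat.Agent.H41.ES1

/-- The divisor-sum coefficient `∑_{c m = N} ε(c) m^k`. -/
noncomputable def lambertCoeff (ε : ℕ → ℂ) (k : ℕ) (N : ℕ) : ℂ :=
  ∑ x ∈ N.divisorsAntidiagonal, ε x.1 * (x.2 : ℂ) ^ k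

lemma summable_weighted_prod (ε : ℕ → ℂ) {B : ℝ} (hB : ∀ c, ‖ε c‖ ≤ B) (k : ℕ) {q : ℂ}
    (hq : ‖q‖ < 1) :
    Summable fun c : ℕ+ × ℕ+ => ε c.1 * ((c.2 : ℕ) : ℂ) ^ k * q ^ ((c.1 : ℕ) * (c.2 : ℕ)) := by
  have h0 := summable_prod_mul_pow (𝕜 := ℂ) k hq
  refine Summable.of_norm_bounded (h0.norm.mul_left B) fun c => ?_
  rw [mul_assoc, norm_mul]
  have : ‖((c.2 : ℕ) : ℂ) ^ k * q ^ ((c.1 : ℕ) * (c.2 : ℕ))‖ =
      ‖((c.2 : ℂ)) ^ k * q ^ ((c.1 : ℕ) * (c.2 : ℕ))‖ := by simp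
  exact mul_le_mul_of_nonneg_right (hB _) (norm_nonneg _)

/-- The regrouping, `HasSum` form. -/
theorem hasSum_lambert (ε : ℕ → ℂ) {B : ℝ} (hB : ∀ c, ‖ε c‖ ≤ B) (k : ℕ) {q : ℂ}
    (hq : ‖q‖ < 1) :
    HasSum (fun N : ℕ+ => lambertCoeff ε k N * q ^ (N : ℕ))
      (∑' c : ℕ+, ε c * ∑' m : ℕ+, ((m : ℕ) : ℂ) ^ k * q ^ ((c : ℕ) * (m : ℕ))) := by
  set G : ℕ+ × ℕ+ → ℂ :=
    fun c => ε c.1 * ((c.2 : ℕ) : ℂ) ^ k * q ^ ((c.1 : ℕ) * (c.2 : ℕ)) with hG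
  have hsummable : Summable G := summable_weighted_prod ε hB k hq
  have htot : ∑' c : ℕ+, ε c * ∑' m : ℕ+, ((m : ℕ) : ℂ) ^ k * q ^ ((c : ℕ) * (m : ℕ)) =
      ∑' x, G x := by
    rw [hsummable.tsum_prod]
    refine tsum_congr fun c => ?_
    rw [← tsum_mul_left]
    refine tsum_congr fun m => ?_
    simp only [hG]
    ring
  rw [htot]
  have hσ : HasSum (G ∘ sigmaAntidiagonalEquivProd) (∑' x, G x) :=
    (Equiv.hasSum_iff sigmaAntidiagonalEquivProd).mpr hsummable.hasSum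
  have hn := hσ.sigma fun n => hasSum_fintype _
  have hident : ∀ n : ℕ+, ∑ x : Nat.divisorsAntidiagonal (n : ℕ),
      (G ∘ sigmaAntidiagonalEquivProd) ⟨n, x⟩ = lambertCoeff ε k n * q ^ (n : ℕ) := by
    intro n
    rw [lambertCoeff, Finset.sum_mul]
    have e0 : ∀ x : Nat.divisorsAntidiagonal (n : ℕ),
        (G ∘ sigmaAntidiagonalEquivProd) ⟨n, x⟩ = ε x.1.1 * (x.1.2 : ℂ) ^ k * q ^ (n : ℕ) := by
      intro x
      have hx := (Nat.mem_divisorsAntidiagonal.mp x.2).1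
      simp only [Function.comp_apply, hG, sigmaAntidiagonalEquivProd,
        divisorsAntidiagonalFactors, Equiv.coe_fn_mk, PNat.mk_coe, hx]
    simp only [e0]
    rw [Finset.univ_eq_attach,
      (n : ℕ).divisorsAntidiagonal.sum_attach
        (fun x : ℕ × ℕ => ε x.1 * (x.2 : ℂ) ^ k * q ^ (n : ℕ))]
  simp only [hident] at hn
  exact hn

theorem tsum_lambert (ε : ℕ → ℂ) {B : ℝ} (hB : ∀ c, ‖ε c‖ ≤ B) (k : ℕ) {q : ℂ}
    (hq : ‖q‖ < 1) :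
    ∑' c : ℕ+, ε c * ∑' m : ℕ+, ((m : ℕ) : ℂ) ^ k * q ^ ((c : ℕ) * (m : ℕ)) =
      ∑' N : ℕ+, lambertCoeff ε k N * q ^ (N : ℕ) :=
  (hasSum_lambert ε hB k hq).tsum_eq.symm

/-- Summability of the outer sum. -/
theorem summable_lambert_outer (ε : ℕ → ℂ) {B : ℝ} (hB : ∀ c, ‖ε c‖ ≤ B) (k : ℕ) {q : ℂ}
    (hq : ‖q‖ < 1) :
    Summable fun c : ℕ+ => ε c * ∑' m : ℕ+, ((m : ℕ) : ℂ) ^ k * q ^ ((c : ℕ) * (m : ℕ)) := by
  have hsummable := summable_weighted_prod ε hB k hq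
  have := hsummable.prod
  refine this.congr fun c => ?_
  rw [← tsum_mul_left]
  refine tsum_congr fun m => ?_
  ring

end Fermat.Agent.H41.ES1
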