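import Fermat.Agent.H41.ES1.LatticeSum
import Fermat.Agent.H41.ES1.LambertSum

/-!
# P-ES1 / GEN-b: the `q`-expansion of the lattice sums over `c ≡ a mod M`

For `a ≠ 0` in `ZMod M`, even `k ≥ 4`:
`∑_{c ≡ a (M), e} (c z + e)^{-k} = ((-2πi)^k / (k-1)!) ∑_{N ≥ 1} (∑_{c m = N} ε_a(c) m^{k-1}) q^N`,
`ε_a(c) = [c ≡ a] + [c ≡ -a]`.
-/

set_option autoImplicit false

open UpperHalfPlane EisensteinSeries Matrix CongruenceSubgroup ModularForm Filter Topology
open scoped MatrixGroups Manifold Topology Real Nat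

namespace Fermat.Agent.H41.ES1

variable {M : ℕ}

/-- The indicator weight of the first coordinate. -/
noncomputable def firstInd (a : ZMod M) : (Fin 2 → ZMod M) → ℂ := fun v => if v 0 = a then 1 else 0

lemma firstCoord_firstInd (a : ZMod M) : FirstCoord (firstInd a) := fun u v h => by
  simp [firstInd, h]

/-- `ε_a(c) = [c ≡ a] + [c ≡ -a]`. -/
noncomputable def epsInd (a : ZMod M) (c : ℕ) : ℂ :=
  (if (c : ZMod M) = a then 1 else 0) + (if (c : ZMod M) = -a then 1 else 0)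

lemma norm_epsInd_le (a : ZMod M) (c : ℕ) : ‖epsInd a c‖ ≤ 2 := by
  unfold epsInd
  refine (norm_add_le _ _).trans ?_
  have h1 : ‖(if (c : ZMod M) = a then (1 : ℂ) else 0)‖ ≤ 1 := by split_ifs <;> simp
  have h2 : ‖(if (c : ZMod M) = -a then (1 : ℂ) else 0)‖ ≤ 1 := by split_ifs <;> simp
  linarith

/-- The inner sum over `e` for a positive `c`: the Lipschitz formula. -/
lemma tsum_eisSummand_pos {k : ℕ} (hk : 3 ≤ k) (c : ℕ+) (z : ℍ) :
    ∑' e : ℤ, eisSummand k ![(c : ℤ), e] z = ((-2 * π * Complex.I) ^ k / (k - 1)!) *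
      ∑' m : ℕ+, ((m : ℕ) : ℂ) ^ (k - 1) * Complex.exp (2 * π * Complex.I * z) ^ ((c : ℕ) * (m : ℕ)) := by
  have H := EisensteinSeries.qExpansion_identity_pnat (k := k - 1) (by omega)
    ⟨(c : ℂ) * z, by simpa using z.2⟩
  simp_rw [show k - 1 + 1 = k by omega, one_div] at H
  have e1 : ∀ e : ℤ, eisSummand k ![(c : ℤ), e] z = (((c : ℂ) * (z : ℂ) + e) ^ k)⁻¹ := by
    intro e
    simp [eisSummand]
  simp_rw [e1]
  rw [H]
  congr 1
  refine tsum_congr fun m => ?_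
  congr 1
  rw [← Complex.exp_nat_mul, ← Complex.exp_nat_mul]
  congr 1
  push_cast
  ring

/-- The inner sum over `e` for a negative `c` (even weight). -/
lemma tsum_eisSummand_neg {k : ℕ} (hk2 : Even k) (c : ℕ+) (z : ℍ) :
    ∑' e : ℤ, eisSummand k ![-(c : ℤ), e] z = ∑' e : ℤ, eisSummand k ![(c : ℤ), e] z := by
  rw [← (Equiv.neg ℤ).tsum_eq]
  refine tsum_congr fun e => ?_
  simp only [eisSummand, Equiv.neg_apply, Matrix.cons_val_zero, Matrix.cons_val_one,
    Int.cast_neg]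
  have : -((c : ℤ) : ℂ) * (z : ℂ) + -(e : ℂ) = -(((c : ℤ) : ℂ) * z + e) := by ring
  rw [this, _root_.zpow_neg, _root_.zpow_neg, zpow_natCast, zpow_natCast, hk2.neg_pow]

lemma lambertCoeff_epsInd (a : ZMod M) (k N : ℕ) :
    lambertCoeff (epsInd a) k N =
      lambertCoeff (fun c : ℕ => if (c : ZMod M) = a then (1 : ℂ) else 0) k N +
      lambertCoeff (fun c : ℕ => if (c : ZMod M) = -a then (1 : ℂ) else 0) k N := by
  simp only [lambertCoeff, epsInd, ← Finset.sum_add_distrib]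
  refine Finset.sum_congr rfl fun x _ => ?_
  ring

/-- **The `q`-expansion of the lattice sum over `c ≡ a mod M`.** -/
theorem latSum_firstInd_eq [NeZero M] (a : ZMod M) (ha : a ≠ 0) {k : ℕ} (hk : 3 ≤ k)
    (hk2 : Even k) (z : ℍ) :
    latSum (firstInd a) k z = ((-2 * π * Complex.I) ^ k / (k - 1)!) *
      ∑' N : ℕ+, lambertCoeff (epsInd a) (k - 1) N *
        Complex.exp (2 * π * Complex.I * z) ^ (N : ℕ) := by
  set q : ℂ := Complex.exp (2 * π * Complex.I * z) with hq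
  have hqn : ‖q‖ < 1 := norm_exp_two_pi_I_lt_one z
  set Ck : ℂ := (-2 * π * Complex.I) ^ k / (k - 1)! with hCk
  set ε₁ : ℕ → ℂ := fun c => if (c : ZMod M) = a then (1 : ℂ) else 0 with hε₁
  set ε₂ : ℕ → ℂ := fun c => if (c : ZMod M) = -a then (1 : ℂ) else 0 with hε₂
  have hB1 : ∀ c, ‖ε₁ c‖ ≤ 1 := fun c => by simp only [hε₁]; split_ifs <;> simp
  have hB2 : ∀ c, ‖ε₂ c‖ ≤ 1 := fun c => by simp only [hε₂]; split_ifs <;> simp
  have hk' : (3 : ℤ) ≤ (k : ℤ) := by exact_mod_cast hk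
  -- pass to `ℤ × ℤ`
  have hsum0 : Summable fun v : Fin 2 → ℤ => firstInd a (red M v) * eisSummand k v z :=
    summable_latSum _ hk' z
  have hsumP : Summable fun x : ℤ × ℤ =>
      firstInd a (red M ![x.1, x.2]) * eisSummand k ![x.1, x.2] z := by
    refine (finTwoArrowEquiv ℤ).summable_iff.mp (hsum0.congr fun v => ?_)
    simp [show ![v 0, v 1] = v from List.ofFn_inj.mp rfl]
  have hf : ∀ c : ℤ, ∑' e : ℤ, firstInd a (red M ![c, e]) * eisSummand k ![c, e] z =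
      (if (c : ZMod M) = a then (1 : ℂ) else 0) * ∑' e : ℤ, eisSummand k ![c, e] z := by
    intro c
    rw [← tsum_mul_left]
    refine tsum_congr fun e => ?_
    have : firstInd a (red M ![c, e]) = if (c : ZMod M) = a then (1 : ℂ) else 0 := by
      by_cases h : ((c : ℤ) : ZMod M) = a
      · rw [if_pos h]; simp [firstInd, red, h]
      · rw [if_neg h]; simp [firstInd, red, h]
    rw [this]
  have hsumC : Summable fun c : ℤ =>
      (if (c : ZMod M) = a then (1 : ℂ) else 0) * ∑' e : ℤ, eisSummand k ![c, e] z :=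
    hsumP.prod.congr fun c => hf c
  unfold latSum
  rw [← (finTwoArrowEquiv ℤ).symm.tsum_eq, finTwoArrowEquiv_symm_apply, hsumP.tsum_prod]
  simp_rw [hf]
  rw [tsum_int_eq_zero_add_tsum_pnat hsumC]
  have h0 : ((0 : ℤ) : ZMod M) ≠ a := by simpa using Ne.symm ha
  rw [if_neg h0, zero_mul, zero_add]
  -- the positive part
  have hpos : ∀ c : ℕ+, (if (((c : ℕ) : ℤ) : ZMod M) = a then (1 : ℂ) else 0) *
      ∑' e : ℤ, eisSummand k ![((c : ℕ) : ℤ), e] z =
      Ck * (ε₁ c * ∑' m : ℕ+, ((m : ℕ) : ℂ) ^ (k - 1) * q ^ ((c : ℕ) * (m : ℕ))) := by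
    intro c
    rw [tsum_eisSummand_pos hk c z]
    simp only [hε₁, Int.cast_natCast]
    ring
  have hneg : ∀ c : ℕ+, (if ((-((c : ℕ) : ℤ) : ℤ) : ZMod M) = a then (1 : ℂ) else 0) *
      ∑' e : ℤ, eisSummand k ![-((c : ℕ) : ℤ), e] z =
      Ck * (ε₂ c * ∑' m : ℕ+, ((m : ℕ) : ℂ) ^ (k - 1) * q ^ ((c : ℕ) * (m : ℕ))) := by
    intro c
    rw [tsum_eisSummand_neg hk2 c z, tsum_eisSummand_pos hk c z]
    have : (((-((c : ℕ) : ℤ) : ℤ) : ZMod M) = a) ↔ (((c : ℕ) : ZMod M) = -a) := by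
      push_cast
      exact neg_eq_iff_eq_neg
    simp only [hε₂, this]
    ring
  simp_rw [hpos, hneg]
  rw [tsum_mul_left, tsum_mul_left, ← mul_add]
  congr 1
  have h1 := hasSum_lambert ε₁ hB1 (k - 1) hqn
  have h2 := hasSum_lambert ε₂ hB2 (k - 1) hqn
  have h12 := h1.add h2
  rw [← h12.tsum_eq]
  refine tsum_congr fun N => ?_
  rw [lambertCoeff_epsInd]
  ring

lemma lambertCoeff_zero (ε : ℕ → ℂ) (k : ℕ) : lambertCoeff ε k 0 = 0 := by
  simp [lambertCoeff]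

/-- The `q`-expansion coefficients of the lattice sum over `c ≡ a mod M`. -/
noncomputable def genQCoeff (a : ZMod M) (k : ℕ) (N : ℕ) : ℂ :=
  ((-2 * π * Complex.I) ^ k / (k - 1)!) * lambertCoeff (epsInd a) (k - 1) N

local notation "𝕢" => Function.Periodic.qParam

/-- `HasSum` form of the `q`-expansion. -/
theorem hasSum_latSum_firstInd [NeZero M] (a : ZMod M) (ha : a ≠ 0) {k : ℕ} (hk : 3 ≤ k)
    (hk2 : Even k) (z : ℍ) :
    HasSum (fun N : ℕ => genQCoeff a k N • 𝕢 1 (z : ℂ) ^ N) (latSum (firstInd a) k z) := by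
  have hqn : ‖Complex.exp (2 * π * Complex.I * z)‖ < 1 := norm_exp_two_pi_I_lt_one z
  have h1 := hasSum_lambert (epsInd a) (norm_epsInd_le a) (k - 1) hqn
  have h2 := (h1.summable.hasSum).mul_left ((-2 * π * Complex.I) ^ k / (k - 1)!)
  rw [← latSum_firstInd_eq a ha hk hk2 z] at h2
  have h3 : HasSum (fun N : ℕ+ => genQCoeff a k N • 𝕢 1 (z : ℂ) ^ (N : ℕ))
      (latSum (firstInd a) k z) := by
    refine h2.congr_fun fun N => ?_   
    simp only [genQCoeff, smul_eq_mul, Function.Periodic.qParam]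
    have : Complex.exp (2 * π * Complex.I * (z : ℂ) / (1 : ℝ)) =
        Complex.exp (2 * π * Complex.I * z) := by
      congr 1
      simp
    rw [this]
    ring
  have h4 := (hasSum_pnat_iff_hasSum_succ
    (f := fun N : ℕ => genQCoeff a k N • 𝕢 1 (z : ℂ) ^ N)).mp h3
  have h5 := (hasSum_nat_add_iff (f := fun N : ℕ => genQCoeff a k N • 𝕢 1 (z : ℂ) ^ N) 1).mp h4
  have h0 : genQCoeff a k 0 = 0 := by simp [genQCoeff, lambertCoeff_zero]
  simp only [Finset.range_one, Finset.sum_singleton, h0, zero_smul, add_zero] at h5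
  exact h5

/-- The lattice sum over `c ≡ a mod M` as a modular form on `Γ₁(M)`. -/
noncomputable def genForm [NeZero M] (a : ZMod M) {k : ℕ} (hk : 3 ≤ k) :
    ModularForm (Gamma1 M) k :=
  latSumMF1 (firstInd a) (firstCoord_firstInd a) (by exact_mod_cast hk)

lemma genForm_apply [NeZero M] (a : ZMod M) {k : ℕ} (hk : 3 ≤ k) (z : ℍ) :
    genForm a hk z = latSum (firstInd a) k z := rfl

/-- The `q`-expansion coefficients of `genForm`. -/
theorem qExpansion_genForm_coeff [NeZero M] (a : ZMod M) (ha : a ≠ 0) {k : ℕ} (hk : 3 ≤ k)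
    (hk2 : Even k) (N : ℕ) :
    (qExpansion 1 (genForm a hk)).coeff N = genQCoeff a k N := by
  have h1 : (1 : ℝ) ∈ ((Gamma1 M : Subgroup SL(2, ℤ)) : Subgroup (GL (Fin 2) ℝ)).strictPeriods := by
    rw [CongruenceSubgroup.strictPeriods_Gamma1]
    exact AddSubgroup.mem_zmultiples 1
  exact (ModularFormClass.qExpansion_coeff_unique one_pos h1 (f := genForm a hk)
    (c := genQCoeff a k) (fun z => hasSum_latSum_firstInd a ha hk hk2 z) N).symm

/-- The transformation of the generating forms under `Γ₀(M)`: `G_a ∣ γ = G_{a·d}`-type law in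
terms of weights: `genForm a ∣[k] γ` is the lattice sum for the weight `slashWeight`. -/
theorem genForm_slash [NeZero M] (a : ZMod M) {k : ℕ} (hk : 3 ≤ k) (γ : SL(2, ℤ)) :
    (⇑(genForm a hk) : ℍ → ℂ) ∣[(k : ℤ)] γ = latSum (slashWeight (firstInd a) γ) k :=
  latSum_slash (firstInd a) k γ

/-- For `γ ∈ Γ₀(M)` the slash of `G_a` is `G_{a γ₀₀}`. (Note `(v γ⁻¹)₀ = v₀ d - v₁ c ≡ v₀ d`.) -/
theorem slashWeight_firstInd_of_mem_Gamma0 (a : ZMod M) {γ : SL(2, ℤ)} (hγ : γ ∈ Gamma0 M) :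
    slashWeight (firstInd a) γ = firstInd (a * ((γ 0 0 : ℤ) : ZMod M)) := by
  have hinv : γ⁻¹ ∈ Gamma0 M := inv_mem hγ
  have hc : (((γ⁻¹ : SL(2, ℤ)) 1 0 : ℤ) : ZMod M) = 0 := (Gamma0_mem).mp hinv
  have hc' : (((γ 1 0 : ℤ)) : ZMod M) = 0 := (Gamma0_mem).mp hγ
  -- `(γ⁻¹)₀₀ · γ₀₀ ≡ 1`
  have hmul : (((γ⁻¹ : SL(2, ℤ)) 0 0 : ℤ) : ZMod M) * (((γ 0 0 : ℤ)) : ZMod M) = 1 := by
    have h := sl_val_inv_mul γ
    have h00 := congrFun (congrFun h 0) 0
    simp only [Matrix.mul_apply, Fin.sum_univ_two, Matrix.one_apply_eq] at h00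
    have := congrArg (fun x : ℤ => (x : ZMod M)) h00
    simp only [Int.cast_add, Int.cast_mul, Int.cast_one] at this
    rw [hc', mul_zero, add_zero] at this
    exact this
  funext v
  unfold slashWeight firstInd
  have hv : (v ᵥ* redMat M γ⁻¹) 0 = v 0 * (((γ⁻¹ : SL(2, ℤ)) 0 0 : ℤ) : ZMod M) := by
    simp only [vecMul, dotProduct, Fin.sum_univ_two, redMat, Matrix.map_apply,
      Int.coe_castRingHom]
    rw [hc, mul_zero, add_zero]
  rw [hv]
  have hiff : (v 0 * (((γ⁻¹ : SL(2, ℤ)) 0 0 : ℤ) : ZMod M) = a) ↔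
      (v 0 = a * (((γ 0 0 : ℤ)) : ZMod M)) := by
    constructor
    · intro h
      rw [← h, mul_assoc, hmul, mul_one]
    · intro h
      rw [h, mul_assoc, mul_comm (((γ 0 0 : ℤ)) : ZMod M), hmul, mul_one]
  by_cases h : v 0 = a * (((γ 0 0 : ℤ)) : ZMod M)
  · rw [if_pos h, if_pos (hiff.mpr h)]
  · rw [if_neg h, if_neg (fun h' => h (hiff.mp h'))]

end Fermat.Agent.H41.ES1
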