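/-
P-ES1 / ES1-SMOOTH (row 575, helper41): `J1SmoothStatement`, UNCONDITIONAL.

Inputs: `Fermat.Agent.H41.ES1.j1Smooth_of_principal` (generic open-stabiliser theorem of row 434
instantiated at `F1 M`), `Fermat.Agent.H69.ES1.hasPrincipalDivisors_F1` (row 576),
`Fermat.Agent.H99.ES1.vFunStatement` with `H60.latSumStatement` and `H87.ES1.latSumQExp`.
-/
import Fermat.Agent.H41.ES1.J1Smooth
import Fermat.Agent.H69.ES1Finite
import Fermat.Agent.H99.ES1.VFun
import Fermat.Agent.H60.LatSum
import Fermat.Agent.H87.ES1.LatSumQExp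

set_option autoImplicit false

noncomputable section

namespace Fermat.Agent.H41.ES1

open Fermat.Agent.H29.ES1

/-- `VFunStatement`, unconditional (assembly of rows 539, 540, 541). -/
theorem vFunStatement_h41 : VFunStatement :=
  Fermat.Agent.H99.ES1.vFunStatement Fermat.Agent.H60.latSumStatement
    Fermat.Agent.H87.ES1.latSumQExp

/-- **ES1-SMOOTH**, unconditional: every torsion point of `J₁(M)(ℚ̄)`, `M ≥ 5`, is fixed by an
open subgroup of `G_ℚ`. -/
theorem j1SmoothStatement : J1SmoothStatement :=
  j1Smooth_of_principal fun M _ hM =>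
    Fermat.Agent.H69.ES1.hasPrincipalDivisors_F1 vFunStatement_h41 M (by omega)
      (AlgebraicClosure ℚ)

end Fermat.Agent.H41.ES1

end
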