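import Mathlib

/-!
# Weighted Eisenstein lattice sums of level `M`

For `k ≥ 3` and a weight `w : (Fin 2 → ZMod M) → ℂ`,
`latSum w k z = ∑_{v ∈ ℤ²} w (v mod M) (v₀ z + v₁)^{-k}`
is a modular form of weight `k` on `Γ(M)`; if `w` only depends on the first coordinate, it is a
modular form on `Γ₁(M)`.   (P-ES1 / GEN-b, generic part.)
-/

set_option autoImplicit false

open UpperHalfPlane EisensteinSeries Matrix CongruenceSubgroup ModularForm Filter Topology
open scoped MatrixGroups Manifold Topology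

namespace Fermat.Agent.H41.ES1

variable {M : ℕ}

/-- Reduction modulo `M` of an integer vector. -/
def red (M : ℕ) (v : Fin 2 → ℤ) : Fin 2 → ZMod M := fun i => ((v i : ℤ) : ZMod M)

/-- The weighted lattice sum. -/
noncomputable def latSum (w : (Fin 2 → ZMod M) → ℂ) (k : ℤ) (z : ℍ) : ℂ :=
  ∑' v : Fin 2 → ℤ, w (red M v) * eisSummand k v z

/-- A bound for a weight function (the domain is finite). -/
lemma exists_weight_bound [NeZero M] (w : (Fin 2 → ZMod M) → ℂ) :
    ∃ C : ℝ, 0 ≤ C ∧ ∀ a, ‖w a‖ ≤ C := by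
  refine ⟨∑ a, ‖w a‖, Finset.sum_nonneg fun _ _ => norm_nonneg _, fun a => ?_⟩
  exact Finset.single_le_sum (f := fun a => ‖w a‖) (fun _ _ => norm_nonneg _) (Finset.mem_univ a)

lemma summable_norm_latSum [NeZero M] (w : (Fin 2 → ZMod M) → ℂ) {k : ℤ} (hk : 3 ≤ k) (z : ℍ) :
    Summable fun v : Fin 2 → ℤ => ‖w (red M v) * eisSummand k v z‖ := by
  obtain ⟨C, hC0, hC⟩ := exists_weight_bound w
  refine Summable.of_nonneg_of_le (fun _ => norm_nonneg _) (fun v => ?_)
    ((summable_norm_eisSummand hk z).mul_left C)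
  rw [norm_mul]
  exact mul_le_mul_of_nonneg_right (hC _) (norm_nonneg _)

lemma summable_latSum [NeZero M] (w : (Fin 2 → ZMod M) → ℂ) {k : ℤ} (hk : 3 ≤ k) (z : ℍ) :
    Summable fun v : Fin 2 → ℤ => w (red M v) * eisSummand k v z :=
  (summable_norm_latSum w hk z).of_norm

lemma sl_val_mul_inv (γ : SL(2, ℤ)) : γ.1 * (γ⁻¹).1 = 1 :=
  congrArg Subtype.val (mul_inv_cancel γ)

lemma sl_val_inv_mul (γ : SL(2, ℤ)) : (γ⁻¹).1 * γ.1 = 1 :=
  congrArg Subtype.val (inv_mul_cancel γ)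

/-- Right multiplication by `γ ∈ SL(2, ℤ)` as a permutation of `ℤ²`. -/
def vecMulEquiv (γ : SL(2, ℤ)) : (Fin 2 → ℤ) ≃ (Fin 2 → ℤ) where
  toFun v := v ᵥ* γ.1
  invFun v := v ᵥ* (γ⁻¹).1
  left_inv v := by
    show (v ᵥ* γ.1) ᵥ* (γ⁻¹).1 = v
    rw [vecMul_vecMul, sl_val_mul_inv, vecMul_one]
  right_inv v := by
    show (v ᵥ* (γ⁻¹).1) ᵥ* γ.1 = v
    rw [vecMul_vecMul, sl_val_inv_mul, vecMul_one]

/-- The reduction of `γ` modulo `M`. -/
def redMat (M : ℕ) (γ : SL(2, ℤ)) : Matrix (Fin 2) (Fin 2) (ZMod M) :=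
  γ.1.map (Int.castRingHom (ZMod M))

lemma redMat_mul (γ δ : SL(2, ℤ)) : redMat M (γ * δ) = redMat M γ * redMat M δ := by
  unfold redMat
  have : (γ * δ).1 = γ.1 * δ.1 := rfl
  rw [this, Matrix.map_mul]

lemma redMat_one : redMat M 1 = 1 := by
  unfold redMat
  have : (1 : SL(2, ℤ)).1 = 1 := rfl
  rw [this]
  simp

lemma red_vecMul (v : Fin 2 → ℤ) (γ : SL(2, ℤ)) :
    red M (v ᵥ* γ.1) = red M v ᵥ* redMat M γ := by
  have := RingHom.map_vecMul (m := Fin 2) (n := Fin 2) (Int.castRingHom (ZMod M)) γ.1 v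
  funext i
  exact this i

/-- The transformed weight. -/
def slashWeight (w : (Fin 2 → ZMod M) → ℂ) (γ : SL(2, ℤ)) : (Fin 2 → ZMod M) → ℂ :=
  fun a => w (a ᵥ* redMat M γ⁻¹)

/-- The slash action on weighted lattice sums. -/
theorem latSum_slash (w : (Fin 2 → ZMod M) → ℂ) (k : ℤ) (γ : SL(2, ℤ)) :
    latSum w k ∣[k] γ = latSum (slashWeight w γ) k := by
  ext1 z
  rw [SL_slash_apply, _root_.zpow_neg,
    mul_inv_eq_iff_eq_mul₀ (zpow_ne_zero _ <| denom_ne_zero _ z)]
  unfold latSum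
  rw [← tsum_mul_right]
  have hR : ∑' u : Fin 2 → ℤ, slashWeight w γ (red M u) * eisSummand k u z * denom γ z ^ k =
      ∑' v : Fin 2 → ℤ, slashWeight w γ (red M (v ᵥ* γ.1)) * eisSummand k (v ᵥ* γ.1) z *
        denom γ z ^ k :=
    ((vecMulEquiv γ).tsum_eq
      (fun u => slashWeight w γ (red M u) * eisSummand k u z * denom γ z ^ k)).symm
  rw [hR]
  refine tsum_congr fun v => ?_
  rw [eisSummand_SL2_apply]
  show w (red M v) * (denom γ z ^ k * eisSummand k (v ᵥ* γ.1) z) =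
    slashWeight w γ (red M (v ᵥ* γ.1)) * eisSummand k (v ᵥ* γ.1) z * denom γ z ^ k
  have hw : slashWeight w γ (red M (v ᵥ* γ.1)) = w (red M v) := by
    unfold slashWeight
    rw [red_vecMul, vecMul_vecMul, ← redMat_mul, mul_inv_cancel, redMat_one, vecMul_one]
  rw [hw]
  ring

/-! ### Holomorphy -/

/-- The weighted lattice sum converges locally uniformly on `ℍ`. -/
theorem latSum_tendstoLocallyUniformly [NeZero M] (w : (Fin 2 → ZMod M) → ℂ) {k : ℤ}
    (hk : 3 ≤ k) :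
    TendstoLocallyUniformly
      (fun (s : Finset (Fin 2 → ℤ)) ↦ (∑ x ∈ s, w (red M x) * eisSummand k x ·))
      (latSum w k ·) Filter.atTop := by
  have hk' : (2 : ℝ) < k := by norm_cast
  obtain ⟨C, hC0, hC⟩ := exists_weight_bound w
  have p_sum : Summable fun x : Fin 2 → ℤ ↦ ‖x‖ ^ (-k) :=
    mod_cast (summable_one_div_norm_rpow hk')
  simp only [tendstoLocallyUniformly_iff_forall_isCompact, latSum]
  intro K hK
  obtain ⟨A, B, hB, HABK⟩ := subset_verticalStrip_of_isCompact hK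
  refine (tendstoUniformlyOn_tsum
    (hu := (p_sum.mul_left <| r ⟨⟨A, B⟩, hB⟩ ^ (-k : ℝ)).mul_left C)
    (fun p z hz ↦ ?_)).mono HABK
  rw [norm_mul]
  have h1 : ‖eisSummand k p z‖ ≤ r ⟨⟨A, B⟩, hB⟩ ^ (-k : ℝ) * ‖p‖ ^ (-k) := by
    simpa only [eisSummand, one_div, ← _root_.zpow_neg, norm_zpow, ← Real.rpow_intCast,
      Int.cast_neg] using summand_bound_of_mem_verticalStrip (by positivity) p hB hz
  exact mul_le_mul (hC _) h1 (norm_nonneg _) hC0

/-- Variant with maps `ℂ → ℂ`. -/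
lemma latSum_tendstoLocallyUniformlyOn [NeZero M] (w : (Fin 2 → ZMod M) → ℂ) {k : ℤ}
    (hk : 3 ≤ k) :
    TendstoLocallyUniformlyOn (fun (s : Finset (Fin 2 → ℤ)) ↦
      ↑ₕ(fun (z : ℍ) ↦ ∑ x ∈ s, w (red M x) * eisSummand k x z)) (↑ₕ(latSum w k))
        Filter.atTop {z : ℂ | 0 < z.im} := by
  rw [← upperHalfPlaneSet, ← range_coe, ← Set.image_univ]
  apply TendstoLocallyUniformlyOn.comp (s := ⊤) _ _ _ (OpenPartialHomeomorph.continuousOn_symm _)
  · simp only [Set.top_eq_univ, tendstoLocallyUniformlyOn_univ]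
    apply latSum_tendstoLocallyUniformly w hk
  · simp only [IsOpenEmbedding.toOpenPartialHomeomorph_target, Set.top_eq_univ,
      Set.mapsTo_range_iff, Set.mem_univ, forall_const]

/-- Weighted lattice sums are holomorphic. -/
theorem latSum_mdifferentiable [NeZero M] (w : (Fin 2 → ZMod M) → ℂ) {k : ℤ} (hk : 3 ≤ k) :
    MDiff (latSum w k) := by
  intro τ
  suffices DifferentiableAt ℂ (↑ₕ(latSum w k)) τ.1 by
    convert!
      MDifferentiableAt.comp τ (DifferentiableAt.mdifferentiableAt this) τ.mdifferentiable_coe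
    exact funext fun z ↦ (comp_ofComplex (latSum w k) z).symm
  refine DifferentiableOn.differentiableAt ?_ (isOpen_upperHalfPlaneSet.mem_nhds τ.2)
  refine (latSum_tendstoLocallyUniformlyOn w hk).differentiableOn
    (Eventually.of_forall fun s ↦ ?_) isOpen_upperHalfPlaneSet
  have : (↑ₕ(fun (z : ℍ) ↦ ∑ x ∈ s, w (red M x) * eisSummand k x z)) =
      fun z : ℂ => ∑ x ∈ s, w (red M x) * (↑ₕ(eisSummand k x)) z := by
    funext z
    simp
  rw [this]
  exact DifferentiableOn.fun_sum fun x _ ↦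
    (eisSummand_extension_differentiableOn k x).const_mul (w (red M x))

/-! ### Invariance -/

lemma redMat_eq_one_of_mem_Gamma {γ : SL(2, ℤ)} (hγ : γ ∈ Gamma M) : redMat M γ = 1 := by
  have h := Gamma_mem'.mp hγ
  have := congrArg Subtype.val h
  exact this

lemma slashWeight_of_mem_Gamma (w : (Fin 2 → ZMod M) → ℂ) {γ : SL(2, ℤ)} (hγ : γ ∈ Gamma M) :
    slashWeight w γ = w := by
  funext a
  unfold slashWeight
  rw [redMat_eq_one_of_mem_Gamma (inv_mem hγ), vecMul_one]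

/-- A weight depending only on the first coordinate. -/
def FirstCoord (w : (Fin 2 → ZMod M) → ℂ) : Prop := ∀ a b : Fin 2 → ZMod M, a 0 = b 0 → w a = w b

lemma slashWeight_of_mem_Gamma1 (w : (Fin 2 → ZMod M) → ℂ) (hw : FirstCoord w) {γ : SL(2, ℤ)}
    (hγ : γ ∈ Gamma1 M) : slashWeight w γ = w := by
  funext a
  unfold slashWeight
  apply hw
  have h := (Gamma1_mem M γ⁻¹).mp (inv_mem hγ)
  simp only [vecMul, dotProduct, Fin.sum_univ_two, redMat, Matrix.map_apply,
    Int.coe_castRingHom]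
  rw [h.1, h.2.2]
  ring

/-- The weighted lattice sum as a slash invariant form on `Γ(M)`. -/
noncomputable def latSumSIF (w : (Fin 2 → ZMod M) → ℂ) (k : ℤ) : SlashInvariantForm (Gamma M) k where
  toFun := latSum w k
  slash_action_eq' A hA := by
    obtain ⟨A, (hA : A ∈ Γ(M)), rfl⟩ := hA
    show latSum w k ∣[k] A = latSum w k
    rw [latSum_slash, slashWeight_of_mem_Gamma w hA]

lemma latSumSIF_apply (w : (Fin 2 → ZMod M) → ℂ) (k : ℤ) (z : ℍ) :
    latSumSIF w k z = latSum w k z := rfl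

/-! ### Boundedness at the cusps -/

lemma norm_latSum_le [NeZero M] (w : (Fin 2 → ZMod M) → ℂ) {C : ℝ} (_hC0 : 0 ≤ C)
    (hC : ∀ a, ‖w a‖ ≤ C) {k : ℤ} (hk : 3 ≤ k) (z : ℍ) :
    ‖latSum w k z‖ ≤ C * ∑' (x : Fin 2 → ℤ), ‖eisSummand k x z‖ := by
  unfold latSum
  refine (norm_tsum_le_tsum_norm (summable_norm_latSum w hk z)).trans ?_
  rw [← tsum_mul_left]
  refine (summable_norm_latSum w hk z).tsum_le_tsum (fun v => ?_)
    ((summable_norm_eisSummand hk z).mul_left C)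
  rw [norm_mul]
  exact mul_le_mul_of_nonneg_right (hC _) (norm_nonneg _)

/-- Weighted lattice sums are bounded at infinity. -/
theorem isBoundedAtImInfty_latSum [NeZero M] (w : (Fin 2 → ZMod M) → ℂ) {k : ℤ} (hk : 3 ≤ k) :
    IsBoundedAtImInfty (latSum w k) := by
  obtain ⟨C, hC0, hC⟩ := exists_weight_bound w
  rw [UpperHalfPlane.isBoundedAtImInfty_iff]
  refine ⟨C * ∑' (x : Fin 2 → ℤ), r ⟨⟨M, 2⟩, Nat.ofNat_pos⟩ ^ (-k) * ‖x‖ ^ (-k), 2, ?_⟩
  intro z hz
  obtain ⟨n, hn⟩ := (ModularGroup_T_zpow_mem_verticalStrip z (NeZero.pos M))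
  rw [← latSumSIF_apply, ← SlashInvariantForm.T_zpow_width_invariant M k n (latSumSIF w k) z,
    latSumSIF_apply]
  refine (norm_latSum_le w hC0 hC hk _).trans ?_
  apply mul_le_mul_of_nonneg_left _ hC0
  have hk' : (2 : ℝ) < k := by norm_cast
  apply (summable_norm_eisSummand hk _).tsum_le_tsum _
  · exact_mod_cast (summable_one_div_norm_rpow hk').mul_left <| r ⟨⟨M, 2⟩, Nat.ofNat_pos⟩ ^ (-k)
  · intro x
    simp_rw [eisSummand, norm_zpow]
    exact_mod_cast
      summand_bound_of_mem_verticalStrip (lt_trans two_pos hk').le x two_pos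
      (verticalStrip_anti_right M hz hn)

/-- The weighted lattice sum as a modular form on `Γ(M)`. -/
noncomputable def latSumMF [NeZero M] (w : (Fin 2 → ZMod M) → ℂ) {k : ℤ} (hk : 3 ≤ k) :
    ModularForm Γ(M) k where
  toFun := latSum w k
  slash_action_eq' := (latSumSIF w k).slash_action_eq'
  holo' := latSum_mdifferentiable w hk
  bdd_at_cusps' {c} hc := by
    rw [Subgroup.IsArithmetic.isCusp_iff_isCusp_SL2Z] at hc
    rw [OnePoint.isBoundedAt_iff_forall_SL2Z hc]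
    intro γ _
    show IsBoundedAtImInfty (latSum w k ∣[k] γ)
    rw [latSum_slash]
    exact isBoundedAtImInfty_latSum _ hk

/-- The weighted lattice sum as a modular form on `Γ₁(M)`, for a weight depending only on the
first coordinate. -/
noncomputable def latSumMF1 [NeZero M] (w : (Fin 2 → ZMod M) → ℂ) (hw : FirstCoord w) {k : ℤ}
    (hk : 3 ≤ k) : ModularForm (Gamma1 M) k where
  toFun := latSum w k
  slash_action_eq' A hA := by
    obtain ⟨A, hA, rfl⟩ := hA
    show latSum w k ∣[k] A = latSum w k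
    rw [latSum_slash, slashWeight_of_mem_Gamma1 w hw hA]
  holo' := latSum_mdifferentiable w hk
  bdd_at_cusps' {c} hc := by
    rw [Subgroup.IsArithmetic.isCusp_iff_isCusp_SL2Z] at hc
    rw [OnePoint.isBoundedAt_iff_forall_SL2Z hc]
    intro γ _
    show IsBoundedAtImInfty (latSum w k ∣[k] γ)
    rw [latSum_slash]
    exact isBoundedAtImInfty_latSum _ hk

@[simp] lemma latSumMF1_apply [NeZero M] (w : (Fin 2 → ZMod M) → ℂ) (hw : FirstCoord w) {k : ℤ}
    (hk : 3 ≤ k) (z : ℍ) : latSumMF1 w hw hk z = latSum w k z := rfl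

@[simp] lemma latSumMF_apply [NeZero M] (w : (Fin 2 → ZMod M) → ℂ) {k : ℤ}
    (hk : 3 ≤ k) (z : ℍ) : latSumMF w hk z = latSum w k z := rfl

end Fermat.Agent.H41.ES1
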